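import Fermat.Agent.S56.GW.EC.Syl.Devissage

/-!
# S56 [EC-SYL]: the Kummer form of `H3V` (prefix `s56ecs_`)

`s56ecs_H3V_of_kummer`: let `0 → μ → E → E → 0` be a short exact sequence of `G`-modules with
`E` smooth and second map multiplication by `p` (additive notation).  If

* (K2) every level-constant 2-cocycle of `E` is `p •` a level-constant 2-cocycle plus `d¹` of a
  level-constant 1-cochain (`H²(E)` is `p`-divisible), and
* (K3) every level-constant 3-cocycle `e` of `E` such that `p • e` is `d²` of a level-constant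
  2-cochain is itself `d²` of a level-constant 2-cochain (`H³(E)[p] = 0`),

then `H3V L μ`.
-/

set_option autoImplicit false

namespace Fermat.Agent.S56

open Fermat.Agent.S55 groupCohomology

section Kummer

variable {G : Type*} [Group G] (L : LevelSys G) {μ E : Type*}
  [AddCommGroup μ] [DistribMulAction G μ] [AddCommGroup E] [DistribMulAction G E]

/-- (K2): `H²(E)` is `p`-divisible. -/
def s56ecs_K2 (p : ℕ) (E : Type*) [AddCommGroup E] [DistribMulAction G E] : Prop :=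
  ∀ z : G × G → E, IsCocycle₂ z → L.IsLC2 z →
    ∃ (z' : G × G → E) (b : G → E), IsCocycle₂ z' ∧ L.IsLC2 z' ∧ L.IsLC1 b ∧
      z = p • z' + lvD1 G E b

/-- (K3): `H³(E)[p] = 0`. -/
def s56ecs_K3 (p : ℕ) (E : Type*) [AddCommGroup E] [DistribMulAction G E] : Prop :=
  ∀ e : G × G × G → E, s56ecs_IsZ3 e → s56ecs_IsLC3 L e →
    (∃ c : G × G → E, L.IsLC2 c ∧ s56ecs_d2 G E c = p • e) →
    ∃ c' : G × G → E, L.IsLC2 c' ∧ s56ecs_d2 G E c' = e

/-- (K3) follows from the vanishing of `H³(E)`. -/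
lemma s56ecs_K3_of_H3V (p : ℕ) (h : s56ecs_H3V L E) : s56ecs_K3 L p E :=
  fun e heZ heL _ => h e heZ heL

/-- **The Kummer form.** -/
theorem s56ecs_H3V_of_kummer (p : ℕ) (Ek : LvSES G μ E E) (hπ : ∀ e : E, Ek.π e = p • e)
    (hE : L.IsSmooth E) (h2 : s56ecs_K2 L p E) (h3 : s56ecs_K3 L p E) : s56ecs_H3V L μ := by
  intro a haZ haL
  -- the image cocycle in `E` is killed by `p`
  set e : G × G × G → E := fun t => Ek.i (a t) with he
  have heZ : s56ecs_IsZ3 e := haZ.map Ek.i Ek.i_equiv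
  have heL : s56ecs_IsLC3 L e := haL.comp Ek.i
  have hpe : p • e = 0 := by
    funext t
    simp only [Pi.smul_apply, Pi.zero_apply, he, ← hπ, Ek.π_i]
  obtain ⟨c, hcL, hc⟩ := h3 e heZ heL ⟨0, LevelSys.isLC2_const (0 : E), by rw [map_zero, hpe]⟩
  -- `p • c` is a 2-cocycle
  have hpcZ : IsCocycle₂ (p • c) := by
    rw [s56ecs_isCocycle₂_iff, s56ecs_d2_nsmul, hc, hpe]
  have hpcL : L.IsLC2 (p • c) := s56ecs_IsLC2.nsmul hcL p
  obtain ⟨z', b, hz'Z, hz'L, hbL, hpc⟩ := h2 (p • c) hpcZ hpcL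
  -- divide `b` by `p`
  set b' : G → E := fun g => Ek.sec (b g) with hb'
  have hb'L : L.IsLC1 b' := hbL.comp Ek.sec
  have hpb' : p • b' = b := by
    funext g
    simp only [Pi.smul_apply, hb', ← hπ, Ek.π_sec]
  -- the corrected cochain takes values in `μ`
  set m₀ : G × G → E := c - z' - lvD1 G E b' with hm₀
  have hm₀L : L.IsLC2 m₀ := (hcL.sub hz'L).sub (isLC2_lvD1 hE hb'L)
  have hπm₀ : ∀ q, Ek.π (m₀ q) = 0 := by
    intro q
    rw [hπ]
    have h1 : p • m₀ = p • c - p • z' - lvD1 G E (p • b') := by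
      rw [hm₀, smul_sub, smul_sub, map_nsmul]
    rw [hpb', hpc] at h1
    have h2' : p • m₀ = 0 := by rw [h1]; abel
    exact congrFun h2' q
  set m : G × G → μ := fun q => Ek.ret (m₀ q) with hm
  have him : ∀ q, Ek.i (m q) = m₀ q := fun q => Ek.i_ret (hπm₀ q)
  refine ⟨m, hm₀L.comp Ek.ret, ?_⟩
  -- `d² m = a` after applying the injection `i`
  have h1 : (fun t => Ek.i (s56ecs_d2 G μ m t)) = fun t => Ek.i (a t) := by
    rw [← s56ecs_d2_comp Ek.i Ek.i_equiv m]
    have : (fun q => Ek.i (m q)) = m₀ := funext him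
    rw [this, hm₀, map_sub, map_sub, hc, s56ecs_d2_lvD1,
      (s56ecs_isCocycle₂_iff z').1 hz'Z, sub_zero, sub_zero]
  funext t
  exact Ek.i_inj (congrFun h1 t)

end Kummer

end Fermat.Agent.S56
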