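import Fermat.Agent.S56.GW.EC.Syl.Devissage

/-!
# S56 [EC-SYL]: the `p`-group filtration (prefix `s56ecs_`)

`s56ecs_filtration`: let `U` act on finite `p`-primary modules through a `p`-group (`N ≤ U` acts
trivially and every element of `U` has `p`-power order modulo `N`).  If `H3V L' Z` holds for the
modules `Z` of order `p` with trivial action, it holds for all these modules.
-/

set_option autoImplicit false

namespace Fermat.Agent.S56

open Fermat.Agent.S55 groupCohomology

universe u v

section Actions

variable {U : Type v} [Group U] {Y : Type u} [AddCommGroup Y] [DistribMulAction U Y]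

/-- The action on a stable additive subgroup. -/
@[reducible] def s56ecs_subAct (A : AddSubgroup Y) (hA : ∀ (g : U), ∀ a ∈ A, g • a ∈ A) :
    DistribMulAction U A where
  smul g a := ⟨g • a.1, hA g a.1 a.2⟩
  one_smul a := Subtype.ext (one_smul U a.1)
  mul_smul g h a := Subtype.ext (mul_smul g h a.1)
  smul_zero g := Subtype.ext (smul_zero g)
  smul_add g a b := Subtype.ext (smul_add g a.1 b.1)

/-- The action on the quotient by a stable additive subgroup. -/
@[reducible] def s56ecs_quotAct (A : AddSubgroup Y) (hA : ∀ (g : U), ∀ a ∈ A, g • a ∈ A) :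
    DistribMulAction U (Y ⧸ A) where
  smul g := QuotientAddGroup.map A A (DistribSMul.toAddMonoidHom Y g) (fun a ha => hA g a ha)
  one_smul y := by
    induction y using QuotientAddGroup.induction_on with
    | H y => exact congrArg _ (one_smul U y)
  mul_smul g h y := by
    induction y using QuotientAddGroup.induction_on with
    | H y => exact congrArg _ (mul_smul g h y)
  smul_zero g := map_zero _
  smul_add g a b := map_add _ a b

lemma s56ecs_quotAct_mk (A : AddSubgroup Y) (hA : ∀ (g : U), ∀ a ∈ A, g • a ∈ A) (g : U)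
    (y : Y) :
    letI := s56ecs_quotAct A hA
    g • (QuotientAddGroup.mk y : Y ⧸ A) = QuotientAddGroup.mk (g • y) := rfl

/-- The short exact sequence `0 → A → Y → Y ⧸ A → 0`. -/
def s56ecs_subQuotSES (A : AddSubgroup Y) (hA : ∀ (g : U), ∀ a ∈ A, g • a ∈ A) :
    letI := s56ecs_subAct A hA
    letI := s56ecs_quotAct A hA
    LvSES U A Y (Y ⧸ A) :=
  letI := s56ecs_subAct A hA
  letI := s56ecs_quotAct A hA
  { i := A.subtype
    π := QuotientAddGroup.mk' A
    i_equiv := fun _ _ => rfl
    π_equiv := fun _ _ => rfl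
    i_inj := Subtype.val_injective
    π_surj := QuotientAddGroup.mk'_surjective A
    exact := fun b => by
      rw [QuotientAddGroup.mk'_apply, QuotientAddGroup.eq_zero_iff]
      exact ⟨fun hb => ⟨⟨b, hb⟩, rfl⟩, fun ⟨a, ha⟩ => ha ▸ a.2⟩ }

end Actions

section Filtration

variable {U : Type v} [Group U] (L' : LevelSys U) (p : ℕ) [hp : Fact p.Prime]

/-- **The `p`-group filtration.** -/
theorem s56ecs_filtration
    (hZ : ∀ (Z : Type u) [AddCommGroup Z] [DistribMulAction U Z],
      (∀ (g : U) (z : Z), g • z = z) → Nat.card Z = p → s56ecs_H3V L' Z)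
    (N : Subgroup U) (hN : ∀ g : U, ∃ k : ℕ, g ^ p ^ k ∈ N) :
    ∀ (n : ℕ) (Y : Type u) [AddCommGroup Y] [DistribMulAction U Y] [Finite Y],
      Nat.card Y = n → L'.IsSmooth Y → (∀ g ∈ N, ∀ y : Y, g • y = y) →
      (∃ k : ℕ, ∀ y : Y, p ^ k • y = 0) → s56ecs_H3V L' Y := by
  intro n
  induction n using Nat.strong_induction_on with
  | _ n ih =>
    intro Y _ _ _ hn hsm hNY hpk
    by_cases htriv : Subsingleton Y
    · exact s56ecs_H3V_of_subsingleton
    rw [not_subsingleton_iff_nontrivial] at htriv
    obtain ⟨k, hk⟩ := hpk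
    -- the image of `U` in `Perm Y` is a `p`-group
    let H : Subgroup (Equiv.Perm Y) := (MulAction.toPermHom U Y).range
    have hH : IsPGroup p H := by
      rintro ⟨h, g, rfl⟩
      obtain ⟨j, hj⟩ := hN g
      refine ⟨j, Subtype.ext ?_⟩
      show (MulAction.toPermHom U Y g) ^ p ^ j = 1
      rw [← map_pow]
      ext y
      exact hNY _ hj y
    -- `p ∣ card Y`
    have hdvd : p ∣ Nat.card Y := by
      obtain ⟨y₀, hy₀⟩ := exists_ne (0 : Y)
      have h1 : addOrderOf y₀ ∣ p ^ k := addOrderOf_dvd_of_nsmul_eq_zero (hk y₀)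
      obtain ⟨j, _, hj⟩ := (Nat.dvd_prime_pow hp.out).1 h1
      have hj0 : j ≠ 0 := by
        rintro rfl
        rw [pow_zero, AddMonoid.addOrderOf_eq_one_iff] at hj
        exact hy₀ hj
      have h2 : p ∣ addOrderOf y₀ := by
        rw [hj]; exact dvd_pow_self p hj0
      exact h2.trans (addOrderOf_dvd_natCard y₀)
    -- a non-zero fixed vector
    have h0 : (0 : Y) ∈ MulAction.fixedPoints H Y := by
      rintro ⟨h, g, rfl⟩
      exact smul_zero g
    obtain ⟨b, hbfix, hb0⟩ := hH.exists_fixed_point_of_prime_dvd_card_of_fixed_point Y hdvd h0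
    have hbU : ∀ g : U, g • b = b := fun g => hbfix ⟨MulAction.toPermHom U Y g, g, rfl⟩
    -- an element of order `p` in the fixed vectors
    have hex : ∃ j : ℕ, p ^ j • b = 0 := ⟨k, hk b⟩
    classical
    set j := Nat.find hex with hjdef
    have hj : p ^ j • b = 0 := Nat.find_spec hex
    have hj0 : j ≠ 0 := by
      intro h
      rw [h, pow_zero, one_smul] at hj
      exact hb0 hj.symm
    obtain ⟨j', hj'⟩ := Nat.exists_eq_succ_of_ne_zero hj0
    set y' : Y := p ^ j' • b with hy'
    have hy'0 : y' ≠ 0 := by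
      intro h
      have := Nat.find_min hex (m := j') (by omega)
      exact this h
    have hy'p : p • y' = 0 := by
      rw [hy', ← mul_smul, ← pow_succ', ← Nat.succ_eq_add_one, ← hj']
      exact hj
    have hy'U : ∀ g : U, g • y' = y' := by
      intro g
      rw [hy', smul_comm, hbU]
    -- the submodule generated by `y'`
    set A : AddSubgroup Y := AddSubgroup.zmultiples y' with hAdef
    have hAfix : ∀ (g : U), ∀ a ∈ A, g • a = a := by
      intro g a ha
      obtain ⟨m, rfl⟩ := AddSubgroup.mem_zmultiples_iff.1 ha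
      rw [smul_comm, hy'U]
    have hA : ∀ (g : U), ∀ a ∈ A, g • a ∈ A := fun g a ha => by rw [hAfix g a ha]; exact ha
    have hcardA : Nat.card A = p := by
      rw [hAdef, Nat.card_zmultiples, addOrderOf_eq_prime hy'p hy'0]
    letI := s56ecs_subAct A hA
    letI := s56ecs_quotAct A hA
    let E : LvSES U A Y (Y ⧸ A) := s56ecs_subQuotSES A hA
    have hHA : s56ecs_H3V L' A :=
      hZ A (fun g a => Subtype.ext (hAfix g a.1 a.2)) hcardA
    have hcard : Nat.card Y = Nat.card (Y ⧸ A) * Nat.card A :=
      AddSubgroup.card_eq_card_quotient_mul_card_addSubgroup A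
    have hlt : Nat.card (Y ⧸ A) < n := by
      have hpos : 0 < Nat.card (Y ⧸ A) := Nat.card_pos
      have h2 : 2 ≤ p := hp.out.two_le
      rw [← hn, hcard, hcardA]
      nlinarith
    have hHC : s56ecs_H3V L' (Y ⧸ A) := by
      refine ih _ hlt (Y ⧸ A) rfl (E.isSmooth_C L' hsm) ?_ ⟨k, ?_⟩
      · intro g hg y
        induction y using QuotientAddGroup.induction_on with
        | H y => exact congrArg _ (hNY g hg y)
      · intro y
        induction y using QuotientAddGroup.induction_on with
        | H y =>
          show p ^ k • (QuotientAddGroup.mk y : Y ⧸ A) = 0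
          rw [← QuotientAddGroup.mk_nsmul, hk y]
          rfl
    exact s56ecs_H3V_devissage E hsm hHA hHC

end Filtration

end Fermat.Agent.S56
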