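import Fermat.Agent.S56.GW.EC.Syl.TransferLv
import Fermat.Agent.S56.GW.EC.Syl.Filtration

/-!
# S56 [EC-SYL]: reduction of `H3V` to trivial coefficients of order `p` (prefix `s56ecs_`)

`s56ecs_main`: let `L : LevelSys G`, `p` a prime and `W₁` a level.  Suppose that
`H3V (L.comap U.subtype) Z` holds for every module `Z` of order `p` with trivial action and every
subgroup `U ≤ G` for which there is a normal level `W ≤ W₁`, `W ≤ U`, with `U / W` a `p`-group.
Then `H3V L X` holds for every finite smooth `G`-module `X` killed by a power of `p`.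

`s56ecs_main_H2_surjective`: under the same hypothesis, `lvH2` is right exact on short exact
sequences `0 → A → B → C → 0` with `A` finite, `p`-primary and `B` smooth.
-/

set_option autoImplicit false

namespace Fermat.Agent.S56

open Fermat.Agent.S55 groupCohomology

universe u v

section Main

variable {G : Type v} [Group G] (L : LevelSys G) (p : ℕ) [hp : Fact p.Prime]

/-- The hypothesis of `s56ecs_main`: `H³` vanishes with trivial coefficients of order `p` over
the subgroups `U` that are `p`-groups modulo a small normal level. -/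
def s56ecs_TrivHyp (W₁ : Subgroup G) : Prop :=
  ∀ U : Subgroup G,
    (∃ W ∈ L.levels, W.Normal ∧ W ≤ W₁ ∧ W ≤ U ∧ ∀ g ∈ U, ∃ k : ℕ, g ^ p ^ k ∈ W) →
    ∀ (Z : Type u) [AddCommGroup Z] [DistribMulAction U Z],
      (∀ (g : U) (z : Z), g • z = z) → Nat.card Z = p → s56ecs_H3V (L.comap U.subtype) Z

/-- **Reduction of `H3V` to trivial coefficients.** -/
theorem s56ecs_main (W₁ : Subgroup G) (hW₁ : W₁ ∈ L.levels)
    (hZ : s56ecs_TrivHyp.{u} L p W₁)
    (X : Type u) [AddCommGroup X] [DistribMulAction G X] [Finite X] (hX : L.IsSmooth X)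
    (hpX : ∃ k : ℕ, ∀ x : X, p ^ k • x = 0) : s56ecs_H3V L X := by
  obtain ⟨k, hk⟩ := hpX
  -- a normal level inside `W₁` acting trivially on `X`
  obtain ⟨W, hW, hWW₁, hWn, hWfix⟩ := hX.exists_level L (Set.toFinite (Set.univ : Set X)) hW₁
  have := hWn
  have hWfin : W.FiniteIndex := L.finiteIndex W hW
  have : Finite (G ⧸ W) := Subgroup.finite_quotient_of_finiteIndex
  obtain ⟨P⟩ := (Sylow.nonempty : Nonempty (Sylow p (G ⧸ W)))
  set U : Subgroup G := (P : Subgroup (G ⧸ W)).comap (QuotientGroup.mk' W) with hU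
  have hWU : W ≤ U := by
    intro w hw
    rw [hU, Subgroup.mem_comap, QuotientGroup.mk'_apply, (QuotientGroup.eq_one_iff w).2 hw]
    exact Subgroup.one_mem _
  have hUp : ∀ g ∈ U, ∃ j : ℕ, g ^ p ^ j ∈ W := by
    intro g hg
    have hgP : (QuotientGroup.mk' W g) ∈ (P : Subgroup (G ⧸ W)) := hg
    obtain ⟨j, hj⟩ := P.isPGroup' ⟨_, hgP⟩
    refine ⟨j, ?_⟩
    have h1 : (QuotientGroup.mk' W g) ^ p ^ j = 1 := by
      have := congrArg Subtype.val hj
      simpa using this
    rw [← map_pow, QuotientGroup.mk'_apply, QuotientGroup.eq_one_iff] at h1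
    exact h1
  -- the index of `U` is prime to `p`
  have hidx : U.index = (P : Subgroup (G ⧸ W)).index :=
    Subgroup.index_comap_of_surjective _ (QuotientGroup.mk'_surjective W)
  have hndvd : ¬ p ∣ U.index := by
    rw [hidx]
    exact P.not_dvd_index
  have hcop : Nat.Coprime U.index (p ^ k) :=
    Nat.Coprime.pow_right k ((Nat.Prime.coprime_iff_not_dvd hp.out).2 hndvd).symm
  -- `H3V` over `U`
  have hUX : s56ecs_H3V (L.comap U.subtype) X := by
    refine s56ecs_filtration (L.comap U.subtype) p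
      (hZ U ⟨W, hW, hWn, hWW₁, hWU, hUp⟩) (W.comap U.subtype) ?_ (Nat.card X) X rfl ?_ ?_
      ⟨k, hk⟩
    · intro g
      obtain ⟨j, hj⟩ := hUp g g.2
      refine ⟨j, ?_⟩
      show ((g ^ p ^ j : U) : G) ∈ W
      rw [Subgroup.coe_pow]
      exact hj
    · intro x
      obtain ⟨V, hV, hVx⟩ := hX x
      exact ⟨V.comap U.subtype, ⟨V, hV, rfl⟩, fun g hg => hVx g hg⟩
    · intro g hg x
      exact hWfix g hg x (Set.mem_univ x)
  exact s56ecs_H3V_of_sub hX U hW hWU (p ^ k) hk hcop hUX

/-- **Right-exactness of `lvH2`** under the hypothesis of `s56ecs_main`. -/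
theorem s56ecs_main_H2_surjective (W₁ : Subgroup G) (hW₁ : W₁ ∈ L.levels)
    (hZ : s56ecs_TrivHyp.{u} L p W₁)
    {A : Type u} {B C : Type*} [AddCommGroup A] [DistribMulAction G A] [Finite A]
    [AddCommGroup B] [DistribMulAction G B] [AddCommGroup C] [DistribMulAction G C]
    (E : LvSES G A B C) (hB : L.IsSmooth B) (hpA : ∃ k : ℕ, ∀ a : A, p ^ k • a = 0) :
    Function.Surjective (E.mπ L).H2 :=
  s56ecs_H2_surjective E hB (s56ecs_main L p W₁ hW₁ hZ A (E.isSmooth_A L hB) hpA)

end Main

end Fermat.Agent.S56
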