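import Fermat.Agent.S56.GW.EC.Syl.Devissage

/-!
# S56 [EC-SYL]: additivity of the Euler characteristic in the level formalism
(prefix `s56ecs_`)

For a short exact sequence `E : 0 → A → B → C → 0` of `G`-modules with `B` smooth and all nine
groups `H⁰, H¹, H²` of `A, B, C` finite:

* `s56ecs_chi_range` : `|H⁰B| |H¹A| |H¹C| |H²B| = |H⁰A| |H⁰C| |H¹B| |H²A| |im (H²B → H²C)|`
  (from the long exact sequence of `S55/Level/LES.lean` alone);
* `s56ecs_chi_mul` : if `H²B → H²C` is onto (right-exactness, `s56ecs_H2_surjective`), then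
  `|H⁰B| |H¹A| |H¹C| |H²B| = |H⁰A| |H⁰C| |H¹B| |H²A| |H²C|`, i.e. `χ(B) = χ(A) χ(C)`;
* `s56ecs_chi_dvd` / `s56ecs_chi_le` : the one-sided forms without right-exactness.
-/

set_option autoImplicit false

namespace Fermat.Agent.S56

open Fermat.Agent.S55 groupCohomology

section Generic

/-- Cardinality of the middle term of an exact sequence `X → Y → Z`. -/
lemma s56ecs_card_exact {X Y Z : Type*} [AddCommGroup X] [AddCommGroup Y] [AddCommGroup Z]
    [Finite Y] (f : X →+ Y) (g : Y →+ Z) (h : ∀ y, g y = 0 ↔ ∃ x, f x = y) :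
    Nat.card Y = Nat.card f.range * Nat.card g.range := by
  have hker : g.ker = f.range := by
    ext y
    rw [AddMonoidHom.mem_ker, h y]
    rfl
  rw [AddSubgroup.card_eq_card_quotient_mul_card_addSubgroup g.ker, ← hker, mul_comm,
    Nat.card_congr (QuotientAddGroup.quotientKerEquivRange g).toEquiv]

/-- Cardinality of the source of an injective map. -/
lemma s56ecs_card_inj {X Y : Type*} [AddCommGroup X] [AddCommGroup Y] (f : X →+ Y)
    (h : Function.Injective f) : Nat.card X = Nat.card f.range :=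
  Nat.card_congr (AddMonoidHom.ofInjective h).toEquiv

/-- Cardinality of the range of a surjective map. -/
lemma s56ecs_card_surj {X Y : Type*} [AddCommGroup X] [AddCommGroup Y] (f : X →+ Y)
    (h : Function.Surjective f) : Nat.card f.range = Nat.card Y := by
  rw [AddMonoidHom.range_eq_top.2 h]
  exact Nat.card_congr AddSubgroup.topEquiv.toEquiv

end Generic

section LES

variable {G : Type*} [Group G] {A B C : Type*} [AddCommGroup A] [DistribMulAction G A]
  [AddCommGroup B] [DistribMulAction G B] [AddCommGroup C] [DistribMulAction G C]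
  (E : LvSES G A B C) (L : LevelSys G)

/-- `H⁰(A) → H⁰(B)` is injective. -/
lemma s56ecs_H0_inj : Function.Injective (E.mi L).H0 := by
  intro a a' h
  apply Subtype.ext
  apply E.i_inj
  exact congrArg Subtype.val h

/-- Exactness at `H⁰(B)`. -/
lemma s56ecs_exact_H0B (b : lvH0 (G := G) B) :
    (E.mπ L).H0 b = 0 ↔ ∃ a : lvH0 (G := G) A, (E.mi L).H0 a = b := by
  constructor
  · intro h
    have hb : E.π b.1 = 0 := congrArg Subtype.val h
    obtain ⟨a, ha⟩ := (E.exact b.1).1 hb
    refine ⟨⟨a, fun g => ?_⟩, Subtype.ext ha⟩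
    apply E.i_inj
    rw [E.i_equiv, ha, b.2 g]
  · rintro ⟨a, rfl⟩
    apply Subtype.ext
    exact E.π_i a.1

variable [Finite (lvH0 (G := G) A)] [Finite (lvH0 (G := G) B)] [Finite (lvH0 (G := G) C)]
  [Finite (lvH1 L A)] [Finite (lvH1 L B)] [Finite (lvH1 L C)]
  [Finite (lvH2 L A)] [Finite (lvH2 L B)]

omit [Finite (lvH0 (G := G) A)] in
/-- **The Euler characteristic identity from the long exact sequence alone.** -/
theorem s56ecs_chi_range (hB : L.IsSmooth B) :
    Nat.card (lvH0 (G := G) B) * Nat.card (lvH1 L A) * Nat.card (lvH1 L C) * Nat.card (lvH2 L B)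
      = Nat.card (lvH0 (G := G) A) * Nat.card (lvH0 (G := G) C) * Nat.card (lvH1 L B)
          * Nat.card (lvH2 L A) * Nat.card (E.mπ L).H2.range := by
  have e0 := s56ecs_card_inj (E.mi L).H0 (s56ecs_H0_inj E L)
  have e1 := s56ecs_card_exact (E.mi L).H0 (E.mπ L).H0 (s56ecs_exact_H0B E L)
  have e2 := s56ecs_card_exact (E.mπ L).H0 (E.δ0 L hB) (E.exact_H0C L hB)
  have e3 := s56ecs_card_exact (E.δ0 L hB) (E.mi L).H1 (E.exact_H1A L hB)
  have e4 := s56ecs_card_exact (E.mi L).H1 (E.mπ L).H1 (E.exact_H1B L hB)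
  have e5 := s56ecs_card_exact (E.mπ L).H1 (E.δ1 L hB) (E.exact_H1C L hB)
  have e6 := s56ecs_card_exact (E.δ1 L hB) (E.mi L).H2 (E.exact_H2A L hB)
  have e7 := s56ecs_card_exact (E.mi L).H2 (E.mπ L).H2 (E.exact_H2B L hB)
  rw [e0, e1, e2, e3, e4, e5, e6, e7]
  ring

omit [Finite (lvH0 (G := G) A)] in
/-- **Additivity (multiplicativity) of the Euler characteristic** given right-exactness. -/
theorem s56ecs_chi_mul (hB : L.IsSmooth B) (hsurj : Function.Surjective (E.mπ L).H2) :
    Nat.card (lvH0 (G := G) B) * Nat.card (lvH1 L A) * Nat.card (lvH1 L C) * Nat.card (lvH2 L B)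
      = Nat.card (lvH0 (G := G) A) * Nat.card (lvH0 (G := G) C) * Nat.card (lvH1 L B)
          * Nat.card (lvH2 L A) * Nat.card (lvH2 L C) := by
  rw [s56ecs_chi_range E L hB, s56ecs_card_surj _ hsurj]

include E in
omit [Finite (lvH0 (G := G) A)] in
/-- Without right-exactness: the divisibility form of sub-additivity. -/
theorem s56ecs_chi_dvd [Finite (lvH2 L C)] (hB : L.IsSmooth B) :
    Nat.card (lvH0 (G := G) B) * Nat.card (lvH1 L A) * Nat.card (lvH1 L C) * Nat.card (lvH2 L B)
      ∣ Nat.card (lvH0 (G := G) A) * Nat.card (lvH0 (G := G) C) * Nat.card (lvH1 L B)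
          * Nat.card (lvH2 L A) * Nat.card (lvH2 L C) := by
  rw [s56ecs_chi_range E L hB]
  exact Nat.mul_dvd_mul_left _ (AddSubgroup.card_addSubgroup_dvd_card _)

include E in
/-- Without right-exactness: the inequality form of sub-additivity. -/
theorem s56ecs_chi_le [Finite (lvH2 L C)] (hB : L.IsSmooth B) :
    Nat.card (lvH0 (G := G) B) * Nat.card (lvH1 L A) * Nat.card (lvH1 L C) * Nat.card (lvH2 L B)
      ≤ Nat.card (lvH0 (G := G) A) * Nat.card (lvH0 (G := G) C) * Nat.card (lvH1 L B)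
          * Nat.card (lvH2 L A) * Nat.card (lvH2 L C) := by
  refine Nat.le_of_dvd ?_ (s56ecs_chi_dvd E L hB)
  have h1 : 0 < Nat.card (lvH0 (G := G) A) := Nat.card_pos
  have h2 : 0 < Nat.card (lvH0 (G := G) C) := Nat.card_pos
  have h3 : 0 < Nat.card (lvH1 L B) := Nat.card_pos
  have h4 : 0 < Nat.card (lvH2 L A) := Nat.card_pos
  have h5 : 0 < Nat.card (lvH2 L C) := Nat.card_pos
  positivity

end LES

end Fermat.Agent.S56
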