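import Fermat.Agent.S55.Level.LES

/-!
# S56, node [GW-EC], cell [EC-SYL]: level-constant 3-cochains and the predicate `H3V`
(prefix `s56ecs_`)

Everything is in the S55 level formalism (`LevelSys`, level-constant cochains as plain functions).

* `s56ecs_IsLC3 L f` : the 3-cochain `f : G × G × G → X` is level-constant.
* `s56ecs_d2` : the differential `C² → C³` of inhomogeneous cochains.
* `s56ecs_IsZ3 f` : `f` is a 3-cocycle.
* `s56ecs_H3V L X` : every level-constant 3-cocycle is `d²` of a level-constant 2-cochain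
  (`H³(G, X) = 0` for the level cohomology).
-/

set_option autoImplicit false

namespace Fermat.Agent.S56

open Fermat.Agent.S55 groupCohomology

section LC3

variable {G : Type*} [Group G]

/-- Level-constant 3-cochains. -/
def s56ecs_IsLC3 (L : LevelSys G) {X : Type*} (f : G × G × G → X) : Prop :=
  ∃ U ∈ L.levels, ∀ g g' g'' : G, ∀ s ∈ U, ∀ s' ∈ U, ∀ s'' ∈ U,
    f (g * s, g' * s', g'' * s'') = f (g, g', g'')

variable {L : LevelSys G}

lemma s56ecs_IsLC3.exists_normal {X : Type*} {f : G × G × G → X} (hf : s56ecs_IsLC3 L f) :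
    ∃ U ∈ L.levels, U.Normal ∧ ∀ g g' g'' : G, ∀ s ∈ U, ∀ s' ∈ U, ∀ s'' ∈ U,
      f (g * s, g' * s', g'' * s'') = f (g, g', g'') := by
  obtain ⟨U, hU, h⟩ := hf
  obtain ⟨W, hW, hWU, hn⟩ := L.exists_normal U hU
  exact ⟨W, hW, hn, fun g g' g'' s hs s' hs' s'' hs'' =>
    h g g' g'' s (hWU hs) s' (hWU hs') s'' (hWU hs'')⟩

lemma s56ecs_isLC3_const {X : Type*} (x : X) : s56ecs_IsLC3 L (fun _ : G × G × G => x) := by
  obtain ⟨U, hU⟩ := L.nonempty
  exact ⟨U, hU, fun _ _ _ _ _ _ _ _ _ => rfl⟩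

lemma s56ecs_IsLC3.comp {X Y : Type*} {f : G × G × G → X} (hf : s56ecs_IsLC3 L f) (φ : X → Y) :
    s56ecs_IsLC3 L (φ ∘ f) := by
  obtain ⟨U, hU, h⟩ := hf
  exact ⟨U, hU, fun g g' g'' s hs s' hs' s'' hs'' => by
    simp only [Function.comp_apply, h g g' g'' s hs s' hs' s'' hs'']⟩

lemma s56ecs_IsLC3.map₂ {X Y Z : Type*} {f : G × G × G → X} {f' : G × G × G → Y}
    (hf : s56ecs_IsLC3 L f) (hf' : s56ecs_IsLC3 L f') (φ : X → Y → Z) :
    s56ecs_IsLC3 L (fun t => φ (f t) (f' t)) := by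
  obtain ⟨U, hU, h⟩ := hf
  obtain ⟨V, hV, h'⟩ := hf'
  obtain ⟨W, hW, hWUV⟩ := L.directed U hU V hV
  exact ⟨W, hW, fun g g' g'' s hs s' hs' s'' hs'' => by
    show φ (f _) (f' _) = φ (f _) (f' _)
    rw [h g g' g'' s (hWUV hs).1 s' (hWUV hs').1 s'' (hWUV hs'').1,
      h' g g' g'' s (hWUV hs).2 s' (hWUV hs').2 s'' (hWUV hs'').2]⟩

lemma s56ecs_IsLC3.add {X : Type*} [Add X] {f f' : G × G × G → X} (hf : s56ecs_IsLC3 L f)
    (hf' : s56ecs_IsLC3 L f') : s56ecs_IsLC3 L (f + f') := hf.map₂ hf' (· + ·)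

lemma s56ecs_IsLC3.sub {X : Type*} [Sub X] {f f' : G × G × G → X} (hf : s56ecs_IsLC3 L f)
    (hf' : s56ecs_IsLC3 L f') : s56ecs_IsLC3 L (f - f') := hf.map₂ hf' (· - ·)

lemma s56ecs_IsLC3.neg {X : Type*} [Neg X] {f : G × G × G → X} (hf : s56ecs_IsLC3 L f) :
    s56ecs_IsLC3 L (-f) := hf.comp (fun x => -x)

lemma s56ecs_IsLC3.nsmul {X : Type*} [AddMonoid X] {f : G × G × G → X} (hf : s56ecs_IsLC3 L f)
    (n : ℕ) : s56ecs_IsLC3 L (n • f) := hf.comp (fun x => n • x)

lemma s56ecs_IsLC3.zsmul {X : Type*} [AddGroup X] {f : G × G × G → X} (hf : s56ecs_IsLC3 L f)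
    (n : ℤ) : s56ecs_IsLC3 L (n • f) := hf.comp (fun x => n • x)

lemma s56ecs_IsLC2.nsmul {X : Type*} [AddMonoid X] {f : G × G → X} (hf : L.IsLC2 f)
    (n : ℕ) : L.IsLC2 (n • f) := hf.comp (fun x => n • x)

lemma s56ecs_IsLC2.zsmul {X : Type*} [AddGroup X] {f : G × G → X} (hf : L.IsLC2 f)
    (n : ℤ) : L.IsLC2 (n • f) := hf.comp (fun x => n • x)

/-- A level-constant 3-cochain has finitely many values. -/
lemma s56ecs_IsLC3.finite_range {X : Type*} {f : G × G × G → X} (hf : s56ecs_IsLC3 L f) :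
    (Set.range f).Finite := by
  obtain ⟨U, hU, h⟩ := hf
  have := L.finiteIndex U hU
  have : Finite (G ⧸ U) := Subgroup.finite_quotient_of_finiteIndex
  -- `f` only depends on the classes of the three arguments
  have key : ∀ g g' g'' : G, f (g, g', g'') =
      f ((QuotientGroup.mk g : G ⧸ U).out, (QuotientGroup.mk g' : G ⧸ U).out,
        (QuotientGroup.mk g'' : G ⧸ U).out) := by
    intro g g' g''
    have hx : ∀ x : G, x⁻¹ * (QuotientGroup.mk x : G ⧸ U).out ∈ U := fun x => by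
      rw [← QuotientGroup.eq]
      exact (QuotientGroup.out_eq' _).symm
    have := h g g' g'' _ (hx g) _ (hx g') _ (hx g'')
    rw [mul_inv_cancel_left, mul_inv_cancel_left, mul_inv_cancel_left] at this
    exact this.symm
  have hrange : Set.range f ⊆
      Set.range (fun q : (G ⧸ U) × (G ⧸ U) × (G ⧸ U) => f (q.1.out, q.2.1.out, q.2.2.out)) := by
    rintro _ ⟨⟨g, g', g''⟩, rfl⟩
    exact ⟨(QuotientGroup.mk g, QuotientGroup.mk g', QuotientGroup.mk g''), (key g g' g'').symm⟩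
  exact (Set.finite_range _).subset hrange

end LC3

section Differential

variable (G : Type*) [Group G] (X : Type*) [AddCommGroup X] [DistribMulAction G X]

/-- `d² c = ((g,h,k) ↦ g • c (h,k) - c (g*h,k) + c (g,h*k) - c (g,h))`. -/
def s56ecs_d2 : (G × G → X) →+ (G × G × G → X) where
  toFun c t :=
    t.1 • c (t.2.1, t.2.2) - c (t.1 * t.2.1, t.2.2) + c (t.1, t.2.1 * t.2.2) - c (t.1, t.2.1)
  map_zero' := by funext t; simp
  map_add' c c' := by funext t; simp only [Pi.add_apply, smul_add]; abel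

variable {G X}

@[simp] lemma s56ecs_d2_apply (c : G × G → X) (g h k : G) :
    s56ecs_d2 G X c (g, h, k) = g • c (h, k) - c (g * h, k) + c (g, h * k) - c (g, h) := rfl

/-- 3-cocycles. -/
def s56ecs_IsZ3 (f : G × G × G → X) : Prop :=
  ∀ g h j k : G,
    g • f (h, j, k) - f (g * h, j, k) + f (g, h * j, k) - f (g, h, j * k) + f (g, h, j) = 0

lemma s56ecs_isZ3_zero : s56ecs_IsZ3 (0 : G × G × G → X) := by
  intro g h j k; simp

lemma s56ecs_IsZ3.add {f f' : G × G × G → X} (hf : s56ecs_IsZ3 f) (hf' : s56ecs_IsZ3 f') :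
    s56ecs_IsZ3 (f + f') := by
  intro g h j k
  have h1 := hf g h j k
  have h2 := hf' g h j k
  simp only [Pi.add_apply, smul_add]
  linear_combination (norm := abel) h1 + h2

lemma s56ecs_IsZ3.neg {f : G × G × G → X} (hf : s56ecs_IsZ3 f) : s56ecs_IsZ3 (-f) := by
  intro g h j k
  have h1 := hf g h j k
  simp only [Pi.neg_apply, smul_neg]
  linear_combination (norm := abel) -h1

lemma s56ecs_IsZ3.sub {f f' : G × G × G → X} (hf : s56ecs_IsZ3 f) (hf' : s56ecs_IsZ3 f') :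
    s56ecs_IsZ3 (f - f') := by
  rw [sub_eq_add_neg]; exact hf.add hf'.neg

lemma s56ecs_IsZ3.nsmul {f : G × G × G → X} (hf : s56ecs_IsZ3 f) (n : ℕ) :
    s56ecs_IsZ3 (n • f) := by
  induction n with
  | zero => rw [zero_smul]; exact s56ecs_isZ3_zero
  | succ n ih => rw [succ_nsmul]; exact ih.add hf

lemma s56ecs_IsZ3.zsmul {f : G × G × G → X} (hf : s56ecs_IsZ3 f) (n : ℤ) :
    s56ecs_IsZ3 (n • f) := by
  obtain ⟨m, rfl | rfl⟩ := n.eq_nat_or_neg
  · rw [natCast_zsmul]; exact hf.nsmul m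
  · rw [neg_smul, natCast_zsmul]; exact (hf.nsmul m).neg

/-- `d² ∘ d² = 0`, i.e. coboundaries are cocycles. -/
lemma s56ecs_isZ3_d2 (c : G × G → X) : s56ecs_IsZ3 (s56ecs_d2 G X c) := by
  intro g h j k
  simp only [s56ecs_d2_apply, smul_sub, smul_add, mul_smul, mul_assoc]
  abel

/-- `d² ∘ d¹ = 0`. -/
lemma s56ecs_d2_lvD1 (b : G → X) : s56ecs_d2 G X (lvD1 G X b) = 0 := by
  funext ⟨g, h, k⟩
  simp only [s56ecs_d2_apply, lvD1_apply, smul_sub, smul_add, mul_smul, mul_assoc, Pi.zero_apply]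
  abel

/-- A 2-cochain is a cocycle iff its `d²` vanishes. -/
lemma s56ecs_isCocycle₂_iff (c : G × G → X) : IsCocycle₂ c ↔ s56ecs_d2 G X c = 0 := by
  constructor
  · intro hc
    funext ⟨g, h, k⟩
    have := hc g h k
    simp only [s56ecs_d2_apply, Pi.zero_apply]
    have e : g • c (h, k) - c (g * h, k) + c (g, h * k) - c (g, h)
        = (g • c (h, k) + c (g, h * k)) - (c (g * h, k) + c (g, h)) := by abel
    rw [e, this, sub_self]
  · intro hc g h k
    have := congrFun hc (g, h, k)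
    simp only [s56ecs_d2_apply, Pi.zero_apply] at this
    have e : c (g * h, k) + c (g, h) = (g • c (h, k) + c (g, h * k))
        - (g • c (h, k) - c (g * h, k) + c (g, h * k) - c (g, h)) := by abel
    rw [e, this, sub_zero]

lemma s56ecs_d2_nsmul (n : ℕ) (c : G × G → X) :
    s56ecs_d2 G X (n • c) = n • s56ecs_d2 G X c := map_nsmul _ _ _

lemma s56ecs_d2_zsmul (n : ℤ) (c : G × G → X) :
    s56ecs_d2 G X (n • c) = n • s56ecs_d2 G X c := map_zsmul _ _ _

end Differential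

section H3V

variable {G : Type*} [Group G] (L : LevelSys G) (X : Type*) [AddCommGroup X]
  [DistribMulAction G X]

/-- In a smooth module, `d²` of a level-constant 2-cochain is level-constant. -/
lemma s56ecs_isLC3_d2 {L : LevelSys G} {X : Type*} [AddCommGroup X] [DistribMulAction G X]
    (hX : L.IsSmooth X) {c : G × G → X} (hc : L.IsLC2 c) :
    s56ecs_IsLC3 L (s56ecs_d2 G X c) := by
  obtain ⟨U, hU, hUn, h⟩ := hc.exists_normal
  obtain ⟨W, hW, hWU, hWn, hfix⟩ := hX.exists_level L hc.finite_range hU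
  refine ⟨W, hW, fun g g' g'' s hs s' hs' s'' hs'' => ?_⟩
  simp only [s56ecs_d2_apply]
  have hconj : ∀ (x : G) (t : G), t ∈ U → x⁻¹ * t * x ∈ U := fun x t ht => by
    have := hUn.conj_mem t ht x⁻¹
    simpa using this
  have h1 : c (g' * s', g'' * s'') = c (g', g'') := h g' g'' s' (hWU hs') s'' (hWU hs'')
  have h2 : s • c (g', g'') = c (g', g'') := hfix s hs _ ⟨(g', g''), rfl⟩
  have h3 : c (g * s * (g' * s'), g'' * s'') = c (g * g', g'') := by
    have e : g * s * (g' * s') = g * g' * ((g'⁻¹ * s * g') * s') := by group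
    rw [e]
    exact h (g * g') g'' _ (U.mul_mem (hconj g' s (hWU hs)) (hWU hs')) s'' (hWU hs'')
  have h4 : c (g * s, g' * s' * (g'' * s'')) = c (g, g' * g'') := by
    have e : g' * s' * (g'' * s'') = g' * g'' * ((g''⁻¹ * s' * g'') * s'') := by group
    rw [e]
    exact h g (g' * g'') s (hWU hs) _ (U.mul_mem (hconj g'' s' (hWU hs')) (hWU hs''))
  have h5 : c (g * s, g' * s') = c (g, g') := h g g' s (hWU hs) s' (hWU hs')
  rw [h1, h3, h4, h5, mul_smul, h2]

/-- **`H³` vanishes**: every level-constant 3-cocycle is `d²` of a level-constant 2-cochain. -/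
def s56ecs_H3V : Prop :=
  ∀ f : G × G × G → X, s56ecs_IsZ3 f → s56ecs_IsLC3 L f →
    ∃ c : G × G → X, L.IsLC2 c ∧ s56ecs_d2 G X c = f

end H3V

end Fermat.Agent.S56
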