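import Fermat.Agent.S56.GW.EC.Syl.Basic

/-!
# S56 [EC-SYL]: dévissage, retracts and right-exactness for `H3V` (prefix `s56ecs_`)

* `s56ecs_d2_comp` : `d²` commutes with equivariant additive maps.
* `s56ecs_H3V_devissage` : `0 → A → B → C → 0` with `B` smooth, `H3V A`, `H3V C` ⟹ `H3V B`.
* `s56ecs_H3V_retract`, `s56ecs_H3V_of_equiv` : retracts and isomorphisms.
* `s56ecs_H3V_of_subsingleton`.
* `s56ecs_H2_surjective` : **right-exactness of `lvH2`**: `H3V A` ⟹ `lvH2 B → lvH2 C` is onto.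
-/

set_option autoImplicit false

namespace Fermat.Agent.S56

open Fermat.Agent.S55 groupCohomology

section Comp

variable {G : Type*} [Group G] {X Y : Type*} [AddCommGroup X] [DistribMulAction G X]
  [AddCommGroup Y] [DistribMulAction G Y]

/-- `d²` commutes with equivariant additive maps. -/
lemma s56ecs_d2_comp (φ : X →+ Y) (hφ : ∀ (g : G) (x : X), φ (g • x) = g • φ x)
    (c : G × G → X) :
    s56ecs_d2 G Y (fun p => φ (c p)) = fun t => φ (s56ecs_d2 G X c t) := by
  funext ⟨g, h, k⟩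
  simp only [s56ecs_d2_apply, map_sub, map_add, hφ]

/-- Equivariant additive maps preserve 3-cocycles. -/
lemma s56ecs_IsZ3.map (φ : X →+ Y) (hφ : ∀ (g : G) (x : X), φ (g • x) = g • φ x)
    {f : G × G × G → X} (hf : s56ecs_IsZ3 f) : s56ecs_IsZ3 (fun t => φ (f t)) := by
  intro g h j k
  have := congrArg φ (hf g h j k)
  simpa only [map_sub, map_add, hφ, map_zero] using this

/-- Injective equivariant additive maps reflect 3-cocycles. -/
lemma s56ecs_IsZ3.of_map (φ : X →+ Y) (hφ : ∀ (g : G) (x : X), φ (g • x) = g • φ x)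
    (hinj : Function.Injective φ) {f : G × G × G → X}
    (hf : s56ecs_IsZ3 (fun t => φ (f t))) : s56ecs_IsZ3 f := by
  intro g h j k
  apply hinj
  have := hf g h j k
  simpa only [map_sub, map_add, hφ, map_zero] using this

end Comp

section Devissage

variable {G : Type*} [Group G] {L : LevelSys G} {A B C : Type*}
  [AddCommGroup A] [DistribMulAction G A] [AddCommGroup B] [DistribMulAction G B]
  [AddCommGroup C] [DistribMulAction G C]

/-- **Dévissage** for `H3V`. -/
theorem s56ecs_H3V_devissage (E : LvSES G A B C) (hB : L.IsSmooth B)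
    (hA : s56ecs_H3V L A) (hC : s56ecs_H3V L C) : s56ecs_H3V L B := by
  intro f hfZ hfL
  -- push to `C`
  obtain ⟨cbar, hcbarL, hcbar⟩ := hC (fun t => E.π (f t)) (hfZ.map E.π E.π_equiv)
    (hfL.comp E.π)
  -- lift the 2-cochain to `B`
  set c : G × G → B := fun p => E.sec (cbar p) with hc
  have hcL : L.IsLC2 c := hcbarL.comp E.sec
  -- the difference takes values in `A`
  set f' : G × G × G → B := f - s56ecs_d2 G B c with hf'
  have hf'Z : s56ecs_IsZ3 f' := hfZ.sub (s56ecs_isZ3_d2 c)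
  have hf'L : s56ecs_IsLC3 L f' := hfL.sub (s56ecs_isLC3_d2 hB hcL)
  have hπf' : ∀ t, E.π (f' t) = 0 := by
    intro t
    have h1 : (fun p => E.π (c p)) = cbar := by
      funext p; simp only [hc, E.π_sec]
    have h2 := congrFun (s56ecs_d2_comp E.π E.π_equiv c) t
    rw [h1, hcbar] at h2
    simp only [hf', Pi.sub_apply, map_sub]
    rw [← h2, sub_self]
  set a : G × G × G → A := fun t => E.ret (f' t) with ha
  have hia : ∀ t, E.i (a t) = f' t := fun t => E.i_ret (hπf' t)
  have haZ : s56ecs_IsZ3 a := by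
    apply s56ecs_IsZ3.of_map E.i E.i_equiv E.i_inj
    have : (fun t => E.i (a t)) = f' := funext hia
    rw [this]; exact hf'Z
  have haL : s56ecs_IsLC3 L a := hf'L.comp E.ret
  obtain ⟨a₂, ha₂L, ha₂⟩ := hA a haZ haL
  refine ⟨c + fun p => E.i (a₂ p), hcL.add (ha₂L.comp E.i), ?_⟩
  rw [map_add, s56ecs_d2_comp E.i E.i_equiv a₂, ha₂]
  funext t
  simp only [Pi.add_apply, hia, hf', Pi.sub_apply]
  abel

/-- `H3V` passes to equivariant retracts. -/
theorem s56ecs_H3V_retract (i : A →+ B) (r : B →+ A)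
    (hi : ∀ (g : G) (a : A), i (g • a) = g • i a) (hr : ∀ (g : G) (b : B), r (g • b) = g • r b)
    (hri : ∀ a, r (i a) = a) (hB : s56ecs_H3V L B) : s56ecs_H3V L A := by
  intro f hfZ hfL
  obtain ⟨c, hcL, hc⟩ := hB (fun t => i (f t)) (hfZ.map i hi) (hfL.comp i)
  refine ⟨fun p => r (c p), hcL.comp r, ?_⟩
  rw [s56ecs_d2_comp r hr c, hc]
  funext t
  exact hri _

/-- `H3V` is invariant under equivariant isomorphisms. -/
theorem s56ecs_H3V_of_equiv (e : A ≃+ B) (he : ∀ (g : G) (a : A), e (g • a) = g • e a)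
    (hB : s56ecs_H3V L B) : s56ecs_H3V L A := by
  refine s56ecs_H3V_retract e.toAddMonoidHom e.symm.toAddMonoidHom he ?_ ?_ hB
  · intro g b
    show e.symm (g • b) = g • e.symm b
    apply e.injective
    rw [he, e.apply_symm_apply, e.apply_symm_apply]
  · intro a
    exact e.symm_apply_apply a

/-- `H3V` of the zero module. -/
theorem s56ecs_H3V_of_subsingleton [Subsingleton A] : s56ecs_H3V L A := by
  intro f _ _
  refine ⟨0, LevelSys.isLC2_const (0 : A), ?_⟩
  funext t
  exact Subsingleton.elim _ _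

/-- **Right-exactness of `lvH2`** from `H3V` of the kernel. -/
theorem s56ecs_H2_surjective (E : LvSES G A B C) (hB : L.IsSmooth B) (hA : s56ecs_H3V L A) :
    Function.Surjective (E.mπ L).H2 := by
  intro z
  obtain ⟨⟨cC, hcCZ, hcCL⟩, rfl⟩ := lvH2mk_surjective (L := L) (X := C) z
  -- lift to a 2-cochain of `B`
  set b : G × G → B := fun p => E.sec (cC p) with hb
  have hbL : L.IsLC2 b := hcCL.comp E.sec
  have hπb : (fun p => E.π (b p)) = cC := by
    funext p; simp only [hb, E.π_sec]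
  -- its coboundary takes values in `A`
  have hπd : ∀ t, E.π (s56ecs_d2 G B b t) = 0 := by
    intro t
    have h2 := congrFun (s56ecs_d2_comp E.π E.π_equiv b) t
    rw [hπb, (s56ecs_isCocycle₂_iff cC).1 hcCZ] at h2
    rw [← h2]; rfl
  set a : G × G × G → A := fun t => E.ret (s56ecs_d2 G B b t) with ha
  have hia : ∀ t, E.i (a t) = s56ecs_d2 G B b t := fun t => E.i_ret (hπd t)
  have haZ : s56ecs_IsZ3 a := by
    apply s56ecs_IsZ3.of_map E.i E.i_equiv E.i_inj
    have : (fun t => E.i (a t)) = s56ecs_d2 G B b := funext hia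
    rw [this]; exact s56ecs_isZ3_d2 b
  have haL : s56ecs_IsLC3 L a := (s56ecs_isLC3_d2 hB hbL).comp E.ret
  obtain ⟨a₂, ha₂L, ha₂⟩ := hA a haZ haL
  -- correct the lift
  set b' : G × G → B := b - fun p => E.i (a₂ p) with hb'
  have hb'L : L.IsLC2 b' := hbL.sub (ha₂L.comp E.i)
  have hb'Z : IsCocycle₂ b' := by
    rw [s56ecs_isCocycle₂_iff, hb', map_sub, s56ecs_d2_comp E.i E.i_equiv a₂, ha₂]
    funext t
    simp only [Pi.sub_apply, hia, sub_self, Pi.zero_apply]
  refine ⟨lvH2mk L B ⟨b', hb'Z, hb'L⟩, ?_⟩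
  have : (E.mπ L).H2 (lvH2mk L B ⟨b', hb'Z, hb'L⟩)
      = lvH2mk L C ((E.mπ L).Z2 ⟨b', hb'Z, hb'L⟩) := rfl
  rw [this]
  congr 1
  apply Subtype.ext
  funext ⟨g, h⟩
  show E.π (b' (g, h)) = cC (g, h)
  simp only [hb', Pi.sub_apply, map_sub, E.π_i, sub_zero]
  exact congrFun hπb (g, h)

end Devissage

end Fermat.Agent.S56
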