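import Fermat.Agent.S56.GW.EC.Syl.Basic

/-!
# S56 [EC-SYL]: the transfer argument in degree 3 (prefix `s56ecs_`)

`s56ecs_transfer_core`: `U ≤ G` of finite index, `f` a 3-cocycle of `G` vanishing on `U³`; then
`[G : U] • f = d² c` for an explicit 2-cochain `c`, which is invariant under every normal subgroup
`W ≤ U` under which `f` is invariant and which fixes the values of `f`.

Proof: pass to homogeneous cochains `ψ(a,b,c,d) = a • f(a⁻¹b, b⁻¹c, c⁻¹d)`; the prism operator of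
a `U`-equivariant retraction `π : G → U` gives a `U`-equivariant `Θ` with `dΘ = ψ`
(`ψ ∘ π = 0`); average `Θ` over `G ⧸ U` and go back to inhomogeneous cochains.
-/

set_option autoImplicit false

namespace Fermat.Agent.S56

open Fermat.Agent.S55 groupCohomology

section Hom

variable {G : Type*} [Group G] {X : Type*} [AddCommGroup X] [DistribMulAction G X]

/-- The homogeneous 3-cochain attached to an inhomogeneous one. -/
def s56ecs_hom (f : G × G × G → X) (a b c d : G) : X :=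
  a • f (a⁻¹ * b, b⁻¹ * c, c⁻¹ * d)

lemma s56ecs_hom_smul (f : G × G × G → X) (g a b c d : G) :
    g • s56ecs_hom f a b c d = s56ecs_hom f (g * a) (g * b) (g * c) (g * d) := by
  unfold s56ecs_hom
  rw [mul_smul]
  congr 3
  all_goals group

lemma s56ecs_hom_one (f : G × G × G → X) (g h k : G) :
    s56ecs_hom f 1 g (g * h) (g * h * k) = f (g, h, k) := by
  unfold s56ecs_hom
  rw [one_smul]
  congr 2
  · group
  · congr 1 <;> group

/-- The homogeneous cocycle identity. -/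
lemma s56ecs_hom_cocycle {f : G × G × G → X} (hf : s56ecs_IsZ3 f) (a b c d e : G) :
    s56ecs_hom f b c d e - s56ecs_hom f a c d e + s56ecs_hom f a b d e - s56ecs_hom f a b c e
      + s56ecs_hom f a b c d = 0 := by
  have h := congrArg (fun x => a • x) (hf (a⁻¹ * b) (b⁻¹ * c) (c⁻¹ * d) (d⁻¹ * e))
  simp only [smul_add, smul_sub, smul_zero, ← mul_smul] at h
  unfold s56ecs_hom
  have e1 : a * (a⁻¹ * b) = b := by group
  have e2 : a⁻¹ * b * (b⁻¹ * c) = a⁻¹ * c := by group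
  have e3 : b⁻¹ * c * (c⁻¹ * d) = b⁻¹ * d := by group
  have e4 : c⁻¹ * d * (d⁻¹ * e) = c⁻¹ * e := by group
  rw [e1, e2, e3, e4] at h
  exact h

end Hom

section Prism

variable {G : Type*} {X : Type*} [AddCommGroup X]

/-- The prism operator of a map `π : G → G` on homogeneous 3-cochains. -/
def s56ecs_prism (ψ : G → G → G → G → X) (π : G → G) (a b c : G) : X :=
  ψ a (π a) (π b) (π c) - ψ a b (π b) (π c) + ψ a b c (π c)

/-- The prism identity `d (h ψ) = ψ ∘ π - ψ` for a homogeneous cocycle `ψ`. -/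
lemma s56ecs_prism_identity (ψ : G → G → G → G → X) (π : G → G)
    (hψ : ∀ a b c d e : G, ψ b c d e - ψ a c d e + ψ a b d e - ψ a b c e + ψ a b c d = 0)
    (a b c d : G) :
    s56ecs_prism ψ π b c d - s56ecs_prism ψ π a c d + s56ecs_prism ψ π a b d
        - s56ecs_prism ψ π a b c
      = ψ (π a) (π b) (π c) (π d) - ψ a b c d := by
  have i0 := hψ a (π a) (π b) (π c) (π d)
  have i1 := hψ a b (π b) (π c) (π d)
  have i2 := hψ a b c (π c) (π d)
  have i3 := hψ a b c d (π d)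
  unfold s56ecs_prism
  linear_combination (norm := abel) -i0 + i1 - i2 + i3

end Prism

section Retraction

variable {G : Type*} [Group G] (U : Subgroup G)

/-- A `U`-equivariant retraction `G → U` (as a map `G → G`): `π g = g * t(g⁻¹)` where `t` picks
a representative of the left coset. -/
noncomputable def s56ecs_retr (g : G) : G :=
  g * (QuotientGroup.mk g⁻¹ : G ⧸ U).out

lemma s56ecs_out_mul_mem (x : G) {u : G} (hu : u ∈ U) :
    (QuotientGroup.mk (x * u) : G ⧸ U).out = (QuotientGroup.mk x : G ⧸ U).out := by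
  have : (QuotientGroup.mk (x * u) : G ⧸ U) = QuotientGroup.mk x := by
    rw [QuotientGroup.eq]
    simpa using U.inv_mem hu
  rw [this]

lemma s56ecs_inv_mul_out_mem (x : G) : x⁻¹ * (QuotientGroup.mk x : G ⧸ U).out ∈ U := by
  rw [← QuotientGroup.eq]
  exact (QuotientGroup.out_eq' _).symm

lemma s56ecs_retr_mem (g : G) : s56ecs_retr U g ∈ U := by
  have := s56ecs_inv_mul_out_mem U g⁻¹
  rwa [inv_inv] at this

lemma s56ecs_retr_mul_left {u : G} (hu : u ∈ U) (g : G) :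
    s56ecs_retr U (u * g) = u * s56ecs_retr U g := by
  unfold s56ecs_retr
  rw [mul_inv_rev, s56ecs_out_mul_mem U g⁻¹ (U.inv_mem hu), mul_assoc]

/-- Right translation by a normal subgroup `W ≤ U` moves `π g` inside its `W`-coset. -/
lemma s56ecs_retr_mul_right {W : Subgroup G} (hWn : W.Normal) (hWU : W ≤ U) (g : G) {w : G}
    (hw : w ∈ W) : ∃ w' ∈ W, s56ecs_retr U (g * w) = s56ecs_retr U g * w' := by
  unfold s56ecs_retr
  have h1 : (g * w)⁻¹ = g⁻¹ * (g * w⁻¹ * g⁻¹) := by group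
  have h2 : g * w⁻¹ * g⁻¹ ∈ W := hWn.conj_mem _ (W.inv_mem hw) g
  rw [h1, s56ecs_out_mul_mem U g⁻¹ (hWU h2)]
  set t := (QuotientGroup.mk g⁻¹ : G ⧸ U).out
  refine ⟨t⁻¹ * w * t, ?_, by group⟩
  have := hWn.conj_mem w hw t⁻¹
  simpa using this

end Retraction

section Average

variable {G : Type*} [Group G] {X : Type*} [AddCommGroup X] [DistribMulAction G X]
  (U : Subgroup G) [Fintype (G ⧸ U)]

/-- Averaging a `U`-equivariant homogeneous 2-cochain over `G ⧸ U`. -/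
noncomputable def s56ecs_avg (Θ : G → G → G → X) (a b c : G) : X :=
  ∑ q : G ⧸ U, q.out • Θ (q.out⁻¹ * a) (q.out⁻¹ * b) (q.out⁻¹ * c)

variable {U}

omit [Fintype (G ⧸ U)] in
/-- The summand of the average only depends on the coset. -/
lemma s56ecs_avg_term {Θ : G → G → G → X}
    (hΘ : ∀ u ∈ U, ∀ a b c : G, Θ (u * a) (u * b) (u * c) = u • Θ a b c)
    (x : G) {u : G} (hu : u ∈ U) (a b c : G) :
    (x * u) • Θ ((x * u)⁻¹ * a) ((x * u)⁻¹ * b) ((x * u)⁻¹ * c)
      = x • Θ (x⁻¹ * a) (x⁻¹ * b) (x⁻¹ * c) := by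
  rw [mul_smul, ← hΘ u hu]
  congr 2 <;> group

omit [Fintype (G ⧸ U)] in
lemma s56ecs_avg_term_out {Θ : G → G → G → X}
    (hΘ : ∀ u ∈ U, ∀ a b c : G, Θ (u * a) (u * b) (u * c) = u • Θ a b c)
    (x : G) (a b c : G) :
    (QuotientGroup.mk x : G ⧸ U).out • Θ ((QuotientGroup.mk x : G ⧸ U).out⁻¹ * a)
        ((QuotientGroup.mk x : G ⧸ U).out⁻¹ * b) ((QuotientGroup.mk x : G ⧸ U).out⁻¹ * c)
      = x • Θ (x⁻¹ * a) (x⁻¹ * b) (x⁻¹ * c) := by
  have h := s56ecs_avg_term hΘ x (s56ecs_inv_mul_out_mem U x) a b c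
  rwa [mul_inv_cancel_left] at h

/-- The average of a `U`-equivariant cochain is `G`-equivariant. -/
lemma s56ecs_avg_smul {Θ : G → G → G → X}
    (hΘ : ∀ u ∈ U, ∀ a b c : G, Θ (u * a) (u * b) (u * c) = u • Θ a b c)
    (g a b c : G) :
    g • s56ecs_avg U Θ a b c = s56ecs_avg U Θ (g * a) (g * b) (g * c) := by
  unfold s56ecs_avg
  rw [Finset.smul_sum]
  rw [← Equiv.sum_comp (MulAction.toPerm g : Equiv.Perm (G ⧸ U))
    (fun q => q.out • Θ (q.out⁻¹ * (g * a)) (q.out⁻¹ * (g * b)) (q.out⁻¹ * (g * c)))]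
  refine Finset.sum_congr rfl fun q _ => ?_
  have hq : (MulAction.toPerm g : Equiv.Perm (G ⧸ U)) q = QuotientGroup.mk (g * q.out) := by
    rw [MulAction.toPerm_apply]
    conv_lhs => rw [← QuotientGroup.out_eq' q]
    rfl
  rw [hq, s56ecs_avg_term_out hΘ, ← mul_smul]
  congr 2 <;> group

/-- The average is invariant under right translation by `W` if `Θ` is. -/
lemma s56ecs_avg_inv {Θ : G → G → G → X} {W : Subgroup G}
    (hW : ∀ a b c : G, ∀ s ∈ W, ∀ s' ∈ W, ∀ s'' ∈ W, Θ (a * s) (b * s') (c * s'') = Θ a b c)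
    (a b c : G) {s s' s'' : G} (hs : s ∈ W) (hs' : s' ∈ W) (hs'' : s'' ∈ W) :
    s56ecs_avg U Θ (a * s) (b * s') (c * s'') = s56ecs_avg U Θ a b c := by
  unfold s56ecs_avg
  refine Finset.sum_congr rfl fun q _ => ?_
  rw [← mul_assoc, ← mul_assoc, ← mul_assoc, hW _ _ _ s hs s' hs' s'' hs'']

end Average

section Core

variable {G : Type*} [Group G] {X : Type*} [AddCommGroup X] [DistribMulAction G X]

/-- **Transfer, core form.** -/
theorem s56ecs_transfer_core (U W : Subgroup G) [Fintype (G ⧸ U)] (hWn : W.Normal) (hWU : W ≤ U)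
    (f : G × G × G → X) (hf : s56ecs_IsZ3 f)
    (hfW : ∀ g g' g'' : G, ∀ s ∈ W, ∀ s' ∈ W, ∀ s'' ∈ W,
      f (g * s, g' * s', g'' * s'') = f (g, g', g''))
    (hfix : ∀ w ∈ W, ∀ t, w • f t = f t)
    (hU : ∀ u ∈ U, ∀ u' ∈ U, ∀ u'' ∈ U, f (u, u', u'') = 0) :
    ∃ c : G × G → X, (∀ g g' : G, ∀ s ∈ W, ∀ s' ∈ W, c (g * s, g' * s') = c (g, g')) ∧
      s56ecs_d2 G X c = Fintype.card (G ⧸ U) • f := by
  classical
  set ψ : G → G → G → G → X := s56ecs_hom f with hψdef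
  set π : G → G := s56ecs_retr U with hπdef
  -- conjugation stays in `W`
  have hconj : ∀ (x : G) (t : G), t ∈ W → x⁻¹ * t * x ∈ W := fun x t ht => by
    have := hWn.conj_mem t ht x⁻¹
    simpa using this
  -- `ψ` is invariant under right translation by `W` in every variable
  have hψW : ∀ a b c d : G, ∀ s₀ ∈ W, ∀ s₁ ∈ W, ∀ s₂ ∈ W, ∀ s₃ ∈ W,
      ψ (a * s₀) (b * s₁) (c * s₂) (d * s₃) = ψ a b c d := by
    intro a b c d s₀ h₀ s₁ h₁ s₂ h₂ s₃ h₃
    simp only [hψdef, s56ecs_hom]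
    have e1 : (a * s₀)⁻¹ * (b * s₁) = a⁻¹ * b * (((a⁻¹ * b)⁻¹ * s₀⁻¹ * (a⁻¹ * b)) * s₁) := by
      group
    have e2 : (b * s₁)⁻¹ * (c * s₂) = b⁻¹ * c * (((b⁻¹ * c)⁻¹ * s₁⁻¹ * (b⁻¹ * c)) * s₂) := by
      group
    have e3 : (c * s₂)⁻¹ * (d * s₃) = c⁻¹ * d * (((c⁻¹ * d)⁻¹ * s₂⁻¹ * (c⁻¹ * d)) * s₃) := by
      group
    rw [e1, e2, e3, hfW _ _ _ _ (W.mul_mem (hconj _ _ (W.inv_mem h₀)) h₁) _
      (W.mul_mem (hconj _ _ (W.inv_mem h₁)) h₂) _ (W.mul_mem (hconj _ _ (W.inv_mem h₂)) h₃),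
      mul_smul, hfix s₀ h₀]
  -- `ψ ∘ π = 0`
  have hψπ : ∀ a b c d : G, ψ (π a) (π b) (π c) (π d) = 0 := by
    intro a b c d
    simp only [hψdef, s56ecs_hom]
    rw [hU _ (U.mul_mem (U.inv_mem (s56ecs_retr_mem U a)) (s56ecs_retr_mem U b)) _
      (U.mul_mem (U.inv_mem (s56ecs_retr_mem U b)) (s56ecs_retr_mem U c)) _
      (U.mul_mem (U.inv_mem (s56ecs_retr_mem U c)) (s56ecs_retr_mem U d)), smul_zero]
  -- the `U`-equivariant primitive `Θ = - prism`
  set Θ : G → G → G → X := fun a b c => - s56ecs_prism ψ π a b c with hΘdef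
  have hdΘ : ∀ a b c d : G, Θ b c d - Θ a c d + Θ a b d - Θ a b c = ψ a b c d := by
    intro a b c d
    have h := s56ecs_prism_identity ψ π (fun a b c d e => s56ecs_hom_cocycle hf a b c d e) a b c d
    rw [hψπ, zero_sub] at h
    simp only [hΘdef]
    linear_combination (norm := abel) -h
  have hΘU : ∀ u ∈ U, ∀ a b c : G, Θ (u * a) (u * b) (u * c) = u • Θ a b c := by
    intro u hu a b c
    simp only [hΘdef, s56ecs_prism, hπdef, s56ecs_retr_mul_left U hu, smul_neg, smul_add,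
      smul_sub, hψdef, s56ecs_hom_smul]
  have hΘW : ∀ a b c : G, ∀ s ∈ W, ∀ s' ∈ W, ∀ s'' ∈ W,
      Θ (a * s) (b * s') (c * s'') = Θ a b c := by
    intro a b c s hs s' hs' s'' hs''
    obtain ⟨w, hw, ew⟩ := s56ecs_retr_mul_right U hWn hWU a hs
    obtain ⟨w', hw', ew'⟩ := s56ecs_retr_mul_right U hWn hWU b hs'
    obtain ⟨w'', hw'', ew''⟩ := s56ecs_retr_mul_right U hWn hWU c hs''
    simp only [hΘdef, s56ecs_prism, hπdef, ew, ew', ew'']
    rw [hψW _ _ _ _ s hs w hw w' hw' w'' hw'', hψW _ _ _ _ s hs s' hs' w' hw' w'' hw'',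
      hψW _ _ _ _ s hs s' hs' s'' hs'' w'' hw'']
  -- average and go back to inhomogeneous cochains
  set Χ : G → G → G → X := s56ecs_avg U Θ with hΧdef
  have hΧG : ∀ g a b c : G, g • Χ a b c = Χ (g * a) (g * b) (g * c) :=
    fun g a b c => s56ecs_avg_smul hΘU g a b c
  have hdΧ : ∀ a b c d : G, Χ b c d - Χ a c d + Χ a b d - Χ a b c
      = Fintype.card (G ⧸ U) • ψ a b c d := by
    intro a b c d
    simp only [hΧdef, s56ecs_avg]
    rw [← Finset.sum_sub_distrib, ← Finset.sum_add_distrib, ← Finset.sum_sub_distrib]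
    have : ∀ q : G ⧸ U,
        q.out • Θ (q.out⁻¹ * b) (q.out⁻¹ * c) (q.out⁻¹ * d)
          - q.out • Θ (q.out⁻¹ * a) (q.out⁻¹ * c) (q.out⁻¹ * d)
          + q.out • Θ (q.out⁻¹ * a) (q.out⁻¹ * b) (q.out⁻¹ * d)
          - q.out • Θ (q.out⁻¹ * a) (q.out⁻¹ * b) (q.out⁻¹ * c) = ψ a b c d := by
      intro q
      rw [← smul_sub, ← smul_add, ← smul_sub, hdΘ, hψdef, s56ecs_hom_smul]
      congr 1 <;> group
    rw [Finset.sum_congr rfl fun q _ => this q, Finset.sum_const, Finset.card_univ]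
  refine ⟨fun p => Χ 1 p.1 (p.1 * p.2), ?_, ?_⟩
  · intro g g' s hs s' hs'
    show Χ 1 (g * s) (g * s * (g' * s')) = Χ 1 g (g * g')
    have e : g * s * (g' * s') = g * g' * ((g'⁻¹ * s * g') * s') := by group
    have := s56ecs_avg_inv (U := U) hΘW 1 g (g * g') W.one_mem hs
      (W.mul_mem (hconj g' s hs) hs')
    rw [mul_one] at this
    rw [e]
    exact this
  · funext ⟨g, h, k⟩
    simp only [s56ecs_d2_apply, Pi.smul_apply]
    rw [hΧG, mul_one, ← s56ecs_hom_one f g h k, ← hψdef, ← hdΧ 1 g (g * h) (g * h * k),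
      mul_assoc]

end Core

end Fermat.Agent.S56
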