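import Fermat.Agent.S56.GW.EC.Syl.Transfer

/-!
# S56 [EC-SYL]: the transfer argument in the level formalism (prefix `s56ecs_`)

`s56ecs_transfer`: `L : LevelSys G`, `U ≤ G` a subgroup containing a level, `X` a smooth module,
`f` a level-constant 3-cocycle of `G` whose restriction to `U` is `d²` of a level-constant
2-cochain for `L.comap U.subtype`; then `U.index • f = d² c` with `c` level-constant.

`s56ecs_H3V_of_sub`: if moreover `X` is killed by an integer `m` prime to the index of `U`, then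
`H3V (L.comap U.subtype) X` implies `H3V L X`.
-/

set_option autoImplicit false

namespace Fermat.Agent.S56

open Fermat.Agent.S55 groupCohomology

section Restrict

variable {G : Type*} [Group G] {X : Type*} [AddCommGroup X] [DistribMulAction G X]

/-- Restriction of a 3-cochain to a subgroup. -/
def s56ecs_res3 (U : Subgroup G) (f : G × G × G → X) : U × U × U → X :=
  fun t => f ((t.1 : G), (t.2.1 : G), (t.2.2 : G))

/-- Extension by zero of a 2-cochain of a subgroup. -/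
noncomputable def s56ecs_ext2 (U : Subgroup G) (c₀ : U × U → X) : G × G → X := by
  classical
  exact fun p => if h : p.1 ∈ U ∧ p.2 ∈ U then c₀ (⟨p.1, h.1⟩, ⟨p.2, h.2⟩) else 0

omit [DistribMulAction G X] in
lemma s56ecs_ext2_mem (U : Subgroup G) (c₀ : U × U → X) {g h : G} (hg : g ∈ U) (hh : h ∈ U) :
    s56ecs_ext2 U c₀ (g, h) = c₀ (⟨g, hg⟩, ⟨h, hh⟩) := by
  classical
  unfold s56ecs_ext2
  rw [dif_pos ⟨hg, hh⟩]

omit [DistribMulAction G X] in
lemma s56ecs_ext2_not_mem (U : Subgroup G) (c₀ : U × U → X) {g h : G}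
    (hgh : ¬ (g ∈ U ∧ h ∈ U)) : s56ecs_ext2 U c₀ (g, h) = 0 := by
  classical
  unfold s56ecs_ext2
  rw [dif_neg hgh]

lemma s56ecs_res3_isZ3 (U : Subgroup G) {f : G × G × G → X} (hf : s56ecs_IsZ3 f) :
    s56ecs_IsZ3 (s56ecs_res3 U f) := by
  intro g h j k
  exact hf (g : G) (h : G) (j : G) (k : G)

omit [AddCommGroup X] [DistribMulAction G X] in
lemma s56ecs_res3_isLC3 {L : LevelSys G} (U : Subgroup G) {f : G × G × G → X}
    (hf : s56ecs_IsLC3 L f) : s56ecs_IsLC3 (L.comap U.subtype) (s56ecs_res3 U f) := by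
  obtain ⟨V, hV, h⟩ := hf
  refine ⟨V.comap U.subtype, ⟨V, hV, rfl⟩, fun g g' g'' s hs s' hs' s'' hs'' => ?_⟩
  exact h (g : G) (g' : G) (g'' : G) (s : G) hs (s' : G) hs' (s'' : G) hs''

/-- `d²` of the extension by zero restricts to `d²` on `U`. -/
lemma s56ecs_d2_ext2 (U : Subgroup G) (c₀ : U × U → X) {u u' u'' : G} (hu : u ∈ U)
    (hu' : u' ∈ U) (hu'' : u'' ∈ U) :
    s56ecs_d2 G X (s56ecs_ext2 U c₀) (u, u', u'')
      = s56ecs_d2 U X c₀ (⟨u, hu⟩, ⟨u', hu'⟩, ⟨u'', hu''⟩) := by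
  simp only [s56ecs_d2_apply]
  rw [s56ecs_ext2_mem U c₀ hu' hu'', s56ecs_ext2_mem U c₀ (U.mul_mem hu hu') hu'',
    s56ecs_ext2_mem U c₀ hu (U.mul_mem hu' hu''), s56ecs_ext2_mem U c₀ hu hu']
  rfl

omit [DistribMulAction G X] in
/-- The extension by zero of a level-constant cochain is level-constant, when `U` contains a
level. -/
lemma s56ecs_ext2_isLC2 {L : LevelSys G} (U : Subgroup G) {W₀ : Subgroup G}
    (hW₀ : W₀ ∈ L.levels) (hW₀U : W₀ ≤ U) {c₀ : U × U → X}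
    (hc₀ : (L.comap U.subtype).IsLC2 c₀) : L.IsLC2 (s56ecs_ext2 U c₀) := by
  obtain ⟨_, ⟨V, hV, rfl⟩, h⟩ := hc₀
  obtain ⟨W, hW, hWVW₀⟩ := L.directed V hV W₀ hW₀
  refine ⟨W, hW, fun g g' s hs s' hs' => ?_⟩
  have hsU : s ∈ U := hW₀U (hWVW₀ hs).2
  have hs'U : s' ∈ U := hW₀U (hWVW₀ hs').2
  by_cases hgg : g ∈ U ∧ g' ∈ U
  · rw [s56ecs_ext2_mem U c₀ (U.mul_mem hgg.1 hsU) (U.mul_mem hgg.2 hs'U),
      s56ecs_ext2_mem U c₀ hgg.1 hgg.2]
    exact h ⟨g, hgg.1⟩ ⟨g', hgg.2⟩ ⟨s, hsU⟩ (hWVW₀ hs).1 ⟨s', hs'U⟩ (hWVW₀ hs').1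
  · rw [s56ecs_ext2_not_mem U c₀ hgg, s56ecs_ext2_not_mem U c₀]
    rintro ⟨h1, h2⟩
    apply hgg
    constructor
    · have := U.mul_mem h1 (U.inv_mem hsU)
      rwa [mul_inv_cancel_right] at this
    · have := U.mul_mem h2 (U.inv_mem hs'U)
      rwa [mul_inv_cancel_right] at this

end Restrict

section TransferLv

variable {G : Type*} [Group G] {L : LevelSys G} {X : Type*} [AddCommGroup X]
  [DistribMulAction G X]

/-- **Transfer in the level formalism.** -/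
theorem s56ecs_transfer (hX : L.IsSmooth X) (U : Subgroup G) {W₀ : Subgroup G}
    (hW₀ : W₀ ∈ L.levels) (hW₀U : W₀ ≤ U) {f : G × G × G → X} (hfZ : s56ecs_IsZ3 f)
    (hfL : s56ecs_IsLC3 L f)
    (hres : ∃ c₀ : U × U → X, (L.comap U.subtype).IsLC2 c₀ ∧
      s56ecs_d2 U X c₀ = s56ecs_res3 U f) :
    ∃ c : G × G → X, L.IsLC2 c ∧ s56ecs_d2 G X c = U.index • f := by
  classical
  obtain ⟨c₀, hc₀L, hc₀⟩ := hres
  have hfin : W₀.FiniteIndex := L.finiteIndex W₀ hW₀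
  have hUfin : U.FiniteIndex := Subgroup.finiteIndex_of_le hW₀U
  have : Finite (G ⧸ U) := Subgroup.finite_quotient_of_finiteIndex
  let _ : Fintype (G ⧸ U) := Fintype.ofFinite _
  set c₁ := s56ecs_ext2 U c₀ with hc₁
  have hc₁L : L.IsLC2 c₁ := s56ecs_ext2_isLC2 U hW₀ hW₀U hc₀L
  set f₁ : G × G × G → X := f - s56ecs_d2 G X c₁ with hf₁
  have hf₁Z : s56ecs_IsZ3 f₁ := hfZ.sub (s56ecs_isZ3_d2 c₁)
  have hf₁L : s56ecs_IsLC3 L f₁ := hfL.sub (s56ecs_isLC3_d2 hX hc₁L)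
  have hf₁U : ∀ u ∈ U, ∀ u' ∈ U, ∀ u'' ∈ U, f₁ (u, u', u'') = 0 := by
    intro u hu u' hu' u'' hu''
    simp only [hf₁, Pi.sub_apply, hc₁]
    rw [s56ecs_d2_ext2 U c₀ hu hu' hu'', hc₀]
    exact sub_self _
  -- a normal level inside `W₀` under which `f₁` is invariant and which fixes its values
  obtain ⟨V, hV, hVinv⟩ := hf₁L
  obtain ⟨V₁, hV₁, hV₁le⟩ := L.directed V hV W₀ hW₀
  obtain ⟨W, hW, hWV₁, hWn, hWfix⟩ :=
    hX.exists_level L (s56ecs_IsLC3.finite_range ⟨V, hV, hVinv⟩) hV₁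
  have hWV : W ≤ V := fun x hx => (hV₁le (hWV₁ hx)).1
  have hWU : W ≤ U := fun x hx => hW₀U (hV₁le (hWV₁ hx)).2
  obtain ⟨c, hcW, hc⟩ := s56ecs_transfer_core U W hWn hWU f₁ hf₁Z
    (fun g g' g'' s hs s' hs' s'' hs'' => hVinv g g' g'' s (hWV hs) s' (hWV hs') s'' (hWV hs''))
    (fun w hw t => hWfix w hw (f₁ t) ⟨t, rfl⟩) hf₁U
  have hidx : Fintype.card (G ⧸ U) = U.index := by
    rw [Subgroup.index_eq_card, Nat.card_eq_fintype_card]
  refine ⟨c + U.index • c₁, LevelSys.IsLC2.add ⟨W, hW, hcW⟩ (s56ecs_IsLC2.nsmul hc₁L _), ?_⟩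
  rw [map_add, hc, hidx, s56ecs_d2_nsmul, hf₁, smul_sub]
  abel

/-- If `X` is killed by `m` prime to the index of `U`, then `H3V` over `U` implies `H3V`. -/
theorem s56ecs_H3V_of_sub (hX : L.IsSmooth X) (U : Subgroup G) {W₀ : Subgroup G}
    (hW₀ : W₀ ∈ L.levels) (hW₀U : W₀ ≤ U) (m : ℕ) (hm : ∀ x : X, m • x = 0)
    (hcop : Nat.Coprime U.index m) (hU : s56ecs_H3V (L.comap U.subtype) X) :
    s56ecs_H3V L X := by
  intro f hfZ hfL
  obtain ⟨c₀, hc₀L, hc₀⟩ := hU (s56ecs_res3 U f) (s56ecs_res3_isZ3 U hfZ)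
    (s56ecs_res3_isLC3 U hfL)
  obtain ⟨c, hcL, hc⟩ := s56ecs_transfer hX U hW₀ hW₀U hfZ hfL ⟨c₀, hc₀L, hc₀⟩
  -- Bezout
  have hb : (U.index : ℤ) * Nat.gcdA U.index m + (m : ℤ) * Nat.gcdB U.index m = 1 := by
    have := Nat.gcd_eq_gcd_ab U.index m
    rw [hcop.gcd_eq_one] at this
    exact_mod_cast this.symm
  refine ⟨Nat.gcdA U.index m • c, s56ecs_IsLC2.zsmul hcL _, ?_⟩
  rw [s56ecs_d2_zsmul, hc]
  funext t
  have hmt : (m : ℤ) • f t = 0 := by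
    rw [natCast_zsmul]; exact hm _
  have h1 : Nat.gcdA U.index m • (U.index : ℤ) • f t + Nat.gcdB U.index m • (m : ℤ) • f t
      = f t := by
    rw [← mul_smul, ← mul_smul, ← add_smul, mul_comm (Nat.gcdA U.index m),
      mul_comm (Nat.gcdB U.index m), hb, one_smul]
  rw [hmt, smul_zero, add_zero, natCast_zsmul] at h1
  simp only [Pi.smul_apply]
  exact h1

end TransferLv

end Fermat.Agent.S56
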